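import Mathlib
import Fermat.Prelude.Def_AlgebraicCurve_DivisorClassGroup

set_option autoImplicit false

namespace Fermat.Agent.S24.FF

open AlgebraicCurve IsDedekindDomain WithZero

variable {K F : Type*} [Field K] [Field F] [Algebra K F] (v : Place K F)

theorem adicValuation_le_one_of_mem {f : F} (hf : f ∈ v.toValuationSubring) :
    v.adicValuation f ≤ 1 := by
  have h := v.adicValuation_coe ⟨f, hf⟩
  simp only at h
  rw [h]
  exact HeightOneSpectrum.intValuation_le_one _ _

theorem adicValuation_lt_one_of_mem_maximal {f : v.toValuationSubring}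
    (hf : f ∈ IsLocalRing.maximalIdeal v.toValuationSubring) :
    v.adicValuation (f : F) < 1 := by
  rw [v.adicValuation_coe, HeightOneSpectrum.intValuation_lt_one_iff_mem]
  exact hf

theorem adicValuation_le_one_iff (f : F) :
    v.adicValuation f ≤ 1 ↔ f ∈ v.toValuationSubring := by
  refine ⟨fun h => ?_, adicValuation_le_one_of_mem v⟩
  by_contra hf
  have hf0 : f ≠ 0 := fun h0 => hf (h0 ▸ v.toValuationSubring.zero_mem)
  have hinv : f⁻¹ ∈ v.toValuationSubring := (v.toValuationSubring.mem_or_inv_mem f).resolve_left hf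
  have hnu : ¬ IsUnit (⟨f⁻¹, hinv⟩ : v.toValuationSubring) := by
    intro hu
    obtain ⟨b, hb⟩ := isUnit_iff_exists_inv.mp hu
    apply hf
    have h3 : f⁻¹ * (b : F) = 1 := by
      have := congrArg (Subtype.val) hb
      simpa using this
    have h1 : (b : F) = f := by
      field_simp at h3
      exact h3
    rw [← h1]
    exact b.2
  have hlt : v.adicValuation (f⁻¹) < 1 :=
    adicValuation_lt_one_of_mem_maximal v (f := ⟨f⁻¹, hinv⟩)
      ((IsLocalRing.mem_maximalIdeal _).mpr hnu)
  rw [map_inv₀] at hlt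
  have hpos : 0 < v.adicValuation f := zero_lt_iff.mpr (v.adicValuation_ne_zero hf0)
  have : 1 < v.adicValuation f := by
    by_contra hle
    rw [not_lt] at hle
    have := (one_le_inv₀ hpos).mpr hle
    exact absurd hlt (not_lt.mpr this)
  exact absurd h (not_le.mpr this)

theorem ord_nonneg_iff {f : F} (hf : f ≠ 0) : 0 ≤ v.ord f ↔ f ∈ v.toValuationSubring := by
  rw [← adicValuation_le_one_iff]
  unfold Place.ord
  have h0 := v.adicValuation_ne_zero hf
  rw [neg_nonneg, ← WithZero.log_one, WithZero.log_le_log h0 one_ne_zero]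

theorem ord_nonneg_of_mem {f : F} (hf : f ∈ v.toValuationSubring) : 0 ≤ v.ord f := by
  rcases eq_or_ne f 0 with rfl | h0
  · simp
  · exact (ord_nonneg_iff v h0).mpr hf

theorem mem_of_ord_pos {f : F} (hf : 0 < v.ord f) : f ∈ v.toValuationSubring := by
  have h0 : f ≠ 0 := by rintro rfl; simp at hf
  exact (ord_nonneg_iff v h0).mp hf.le

theorem ord_algebraMap (c : K) : v.ord (algebraMap K F c) = 0 := by
  rcases eq_or_ne c 0 with rfl | hc
  · simp
  have h1 : 0 ≤ v.ord (algebraMap K F c) := ord_nonneg_of_mem v (v.algebraMap_mem' c)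
  have h2 : 0 ≤ v.ord (algebraMap K F c⁻¹) := ord_nonneg_of_mem v (v.algebraMap_mem' c⁻¹)
  rw [map_inv₀, v.ord_inv] at h2
  omega

theorem ord_neg (f : F) : v.ord (-f) = v.ord f := by
  unfold Place.ord
  rw [Valuation.map_neg]

theorem ord_add_ge {f g : F} (hfg : f + g ≠ 0) : min (v.ord f) (v.ord g) ≤ v.ord (f + g) := by
  rcases eq_or_ne f 0 with rfl | hf
  · simp
  rcases eq_or_ne g 0 with rfl | hg
  · simp
  unfold Place.ord
  have h := Valuation.map_add v.adicValuation f g
  have hf' := v.adicValuation_ne_zero hf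
  have hg' := v.adicValuation_ne_zero hg
  have hfg' := v.adicValuation_ne_zero hfg
  rcases le_max_iff.mp h with h1 | h1
  · have := (WithZero.log_le_log hfg' hf').mpr h1
    exact (min_le_left _ _).trans (neg_le_neg this)
  · have := (WithZero.log_le_log hfg' hg').mpr h1
    exact (min_le_right _ _).trans (neg_le_neg this)

theorem ord_sub_ge {f g : F} (hfg : f - g ≠ 0) : min (v.ord f) (v.ord g) ≤ v.ord (f - g) := by
  have := ord_add_ge v (f := f) (g := -g) (by rwa [← sub_eq_add_neg])
  rwa [ord_neg, ← sub_eq_add_neg] at this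

theorem ord_add_eq_of_lt {f g : F} (h : v.ord f < v.ord g) (hf : f ≠ 0) (hg : g ≠ 0) :
    v.ord (f + g) = v.ord f := by
  unfold Place.ord at h ⊢
  have hf' := v.adicValuation_ne_zero hf
  have hg' := v.adicValuation_ne_zero hg
  have hlt : v.adicValuation g < v.adicValuation f := by
    rw [← WithZero.log_lt_log hg' hf']
    omega
  rw [Valuation.map_add_eq_of_lt_left _ hlt]

theorem ord_pos_iff_adicValuation_lt_one {f : F} (hf : f ≠ 0) :
    0 < v.ord f ↔ v.adicValuation f < 1 := by
  unfold Place.ord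
  have h0 := v.adicValuation_ne_zero hf
  rw [neg_pos, ← WithZero.log_one, WithZero.log_lt_log h0 one_ne_zero]

theorem ord_eq_zero_iff_adicValuation_eq_one {f : F} (hf : f ≠ 0) :
    v.ord f = 0 ↔ v.adicValuation f = 1 := by
  have h1 := ord_pos_iff_adicValuation_lt_one v hf
  have h2 : 0 ≤ v.ord f ↔ v.adicValuation f ≤ 1 := by
    rw [ord_nonneg_iff v hf, adicValuation_le_one_iff]
  constructor
  · intro h
    have h3 : v.adicValuation f ≤ 1 := h2.mp (by omega)
    have h4 : ¬ v.adicValuation f < 1 := fun h5 => by have := h1.mpr h5; omega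
    exact le_antisymm h3 (not_lt.mp h4)
  · intro h
    have h3 : 0 ≤ v.ord f := h2.mpr h.le
    have h4 : ¬ 0 < v.ord f := fun h5 => by have := h1.mp h5; rw [h] at this; exact lt_irrefl _ this
    omega

theorem adicValuation_algebraMap {c : K} (hc : c ≠ 0) : v.adicValuation (algebraMap K F c) = 1 := by
  have hc' : algebraMap K F c ≠ 0 := by simpa using hc
  exact (ord_eq_zero_iff_adicValuation_eq_one v hc').mp (ord_algebraMap v c)

theorem mem_maximalIdeal_iff_ord_pos (f : v.toValuationSubring) (hf : (f : F) ≠ 0) :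
    f ∈ IsLocalRing.maximalIdeal v.toValuationSubring ↔ 0 < v.ord (f : F) := by
  rw [ord_pos_iff_adicValuation_lt_one v hf, v.adicValuation_coe,
    HeightOneSpectrum.intValuation_lt_one_iff_mem]
  rfl

theorem mem_maximalIdeal_of_ord_pos {f : F} (hf : 0 < v.ord f) :
    (⟨f, mem_of_ord_pos v hf⟩ : v.toValuationSubring) ∈
      IsLocalRing.maximalIdeal v.toValuationSubring := by
  have h0 : f ≠ 0 := by rintro rfl; simp at hf
  exact (mem_maximalIdeal_iff_ord_pos v ⟨f, mem_of_ord_pos v hf⟩ h0).mpr hf

end Fermat.Agent.S24.FF
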