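import Mathlib
import Fermat.Agent.S24.FF.Ord

set_option autoImplicit false

namespace Fermat.Agent.S24.FF

open AlgebraicCurve IsDedekindDomain WithZero IntermediateField

variable {K F : Type*} [Field K] [Field F] [Algebra K F]

theorem transcendental_of_not_mem_range [IsAlgClosed K] {u : F}
    (hu : u ∉ Set.range (algebraMap K F)) : Transcendental K u := by
  intro halg
  apply hu
  have hint : IsIntegral K u := halg.isIntegral
  have hdeg : (minpoly K u).degree = 1 :=
    IsAlgClosed.degree_eq_one_of_irreducible K (minpoly.irreducible hint)
  exact minpoly.mem_range_of_degree_eq_one K u hdeg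

theorem isAlgebraic_adjoin_simple (htr : Algebra.trdeg K F = 1) {u : F}
    (hu : Transcendental K u) : Algebra.IsAlgebraic K⟮u⟯ F := by
  have hind : AlgebraicIndependent K (fun _ : Unit => u) :=
    algebraicIndependent_unique_type_iff.mpr hu
  have hbasis : IsTranscendenceBasis K (fun _ : Unit => u) := by
    apply hind.isTranscendenceBasis_of_lift_trdeg_le_of_finite
    rw [htr]
    simp
  have := hbasis.isAlgebraic_field
  have hrange : Set.range (fun _ : Unit => u) = {u} := by
    ext y; simp [eq_comm]
  rwa [hrange] at this

theorem finite_adjoin_simple [Algebra.EssFiniteType K F] (htr : Algebra.trdeg K F = 1) {u : F}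
    (hu : Transcendental K u) : Module.Finite K⟮u⟯ F := by
  have := isAlgebraic_adjoin_simple htr hu
  have : Algebra.EssFiniteType K⟮u⟯ F := Algebra.EssFiniteType.of_comp K K⟮u⟯ F
  exact Algebra.finite_of_essFiniteType_of_isAlgebraic

end Fermat.Agent.S24.FF
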