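import Mathlib
import Fermat.Agent.S24.FF.Basic
import Fermat.Prelude.Def_AlgebraicCurve_IsCurveOver

set_option autoImplicit false

namespace Fermat.Agent.S24.FF

open AlgebraicCurve IsDedekindDomain WithZero IntermediateField

variable {K F : Type*} [Field K] [Field F] [Algebra K F]

/-- If all `u - c` are units at `v`, every nonzero polynomial in `u` has valuation one. -/
theorem adicValuation_aeval_eq_one [IsAlgClosed K] (v : Place K F) {u : F}
    (hu : ∀ c : K, v.adicValuation (u - algebraMap K F c) = 1) {P : Polynomial K} (hP : P ≠ 0) :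
    v.adicValuation (Polynomial.aeval u P) = 1 := by
  have hsplit := (IsAlgClosed.splits P).eq_prod_roots
  have hlc : P.leadingCoeff ≠ 0 := Polynomial.leadingCoeff_ne_zero.mpr hP
  rw [hsplit, map_mul, map_mul, Polynomial.aeval_C, adicValuation_algebraMap v hlc, one_mul,
    map_multiset_prod, map_multiset_prod, Multiset.map_map, Multiset.map_map]
  apply Multiset.prod_eq_one
  intro x hx
  obtain ⟨a, _, rfl⟩ := Multiset.mem_map.mp hx
  simpa using hu a

/-- The residue field of a place of a function field of one variable over an algebraically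
closed field is the constant field. -/
theorem exists_residue [IsAlgClosed K] (htr : Algebra.trdeg K F = 1) (v : Place K F) {u : F}
    (hu : u ∈ v.toValuationSubring) :
    ∃ c : K, u = algebraMap K F c ∨ 0 < v.ord (u - algebraMap K F c) := by
  by_contra hcon
  have hcon' : ∀ c : K, u ≠ algebraMap K F c ∧ ¬ 0 < v.ord (u - algebraMap K F c) := by
    intro c
    constructor
    · intro h; exact hcon ⟨c, Or.inl h⟩
    · intro h; exact hcon ⟨c, Or.inr h⟩
  have hu_range : u ∉ Set.range (algebraMap K F) := fun ⟨c, hc⟩ => (hcon' c).1 hc.symm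
  have htrans := transcendental_of_not_mem_range hu_range
  have halg := isAlgebraic_adjoin_simple htr htrans
  have hval : ∀ c : K, v.adicValuation (u - algebraMap K F c) = 1 := by
    intro c
    have hne : u - algebraMap K F c ≠ 0 := sub_ne_zero.mpr (hcon' c).1
    have h2 : 0 ≤ v.ord (u - algebraMap K F c) :=
      ord_nonneg_of_mem v (sub_mem hu (v.algebraMap_mem' c))
    have h1 := (hcon' c).2
    exact (ord_eq_zero_iff_adicValuation_eq_one v hne).mp (by omega)
  have hle : ∀ f ∈ K⟮u⟯, f ∈ v.toValuationSubring := by
    intro f hf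
    obtain ⟨r, s, rfl⟩ := (mem_adjoin_simple_iff K f).mp hf
    rw [← adicValuation_le_one_iff, map_div₀]
    rcases eq_or_ne s 0 with rfl | hs
    · simp
    rw [adicValuation_aeval_eq_one v hval hs, div_one]
    rcases eq_or_ne r 0 with rfl | hr
    · simp
    rw [adicValuation_aeval_eq_one v hval hr]
  apply v.ne_top'
  rw [eq_top_iff]
  intro f _
  have hint : IsIntegral K⟮u⟯ f := (halg.isAlgebraic f).isIntegral
  obtain ⟨p, hpm, hp0⟩ := hint
  let φ : K⟮u⟯ →+* v.toValuationSubring :=
    { toFun := fun e => ⟨e.1, hle e.1 e.2⟩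
      map_one' := rfl
      map_mul' := fun _ _ => rfl
      map_zero' := rfl
      map_add' := fun _ _ => rfl }
  have hint' : IsIntegral v.toValuationSubring f := by
    refine ⟨p.map φ, hpm.map φ, ?_⟩
    rw [Polynomial.eval₂_map]
    exact hp0
  obtain ⟨y, hy⟩ := IsIntegrallyClosed.isIntegral_iff.mp hint'
  rw [← hy]
  exact y.2

theorem algebraMap_residue_surjective [IsAlgClosed K] (htr : Algebra.trdeg K F = 1)
    (v : Place K F) : Function.Surjective (algebraMap K v.ResidueField) := by
  intro y
  obtain ⟨u, rfl⟩ := IsLocalRing.residue_surjective y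
  obtain ⟨c, hc⟩ := exists_residue htr v u.2
  refine ⟨c, ?_⟩
  rw [IsScalarTower.algebraMap_apply K v.toValuationSubring v.ResidueField]
  rcases hc with hc | hc
  · congr 1
    exact Subtype.ext hc.symm
  · symm
    rw [IsLocalRing.ResidueField.algebraMap_eq, ← sub_eq_zero, ← map_sub,
      IsLocalRing.residue_eq_zero_iff]
    exact mem_maximalIdeal_of_ord_pos v hc

theorem deg_eq_one [IsAlgClosed K] (htr : Algebra.trdeg K F = 1) (v : Place K F) :
    v.deg = 1 := by
  have hsurj := algebraMap_residue_surjective htr v
  have hfin : Module.Finite K v.ResidueField :=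
    Module.Finite.of_surjective (Algebra.linearMap K v.ResidueField) hsurj
  exact v.deg_eq_one_of_isAlgClosed_of_finite

/-- `hres` in the shape used by the differential block. -/
theorem exists_residue_sub_mem [IsAlgClosed K] (htr : Algebra.trdeg K F = 1) (v : Place K F)
    (a : v.toValuationSubring) :
    ∃ c : K, a - algebraMap K v.toValuationSubring c ∈
      IsLocalRing.maximalIdeal v.toValuationSubring := by
  obtain ⟨c, hc⟩ := exists_residue htr v a.2
  refine ⟨c, ?_⟩
  rcases hc with hc | hc
  · have : a - algebraMap K v.toValuationSubring c = 0 := by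
      rw [sub_eq_zero]
      exact Subtype.ext hc
    rw [this]
    exact zero_mem _
  · exact mem_maximalIdeal_of_ord_pos v hc

/-- `halg` in the shape used by the differential block. -/
theorem isAlgebraic_adjoin_simple_of_not_mem_range [IsAlgClosed K]
    (htr : Algebra.trdeg K F = 1) (u : F) (hu : u ∉ (algebraMap K F).range) :
    Algebra.IsAlgebraic K⟮u⟯ F :=
  isAlgebraic_adjoin_simple htr
    (transcendental_of_not_mem_range fun h => hu (RingHom.mem_range.mpr h))

end Fermat.Agent.S24.FF
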