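import Mathlib
import Fermat.Agent.S24.FF.Residue

set_option autoImplicit false
set_option linter.unusedSectionVars false

namespace Fermat.Agent.S24.FF

open AlgebraicCurve IsDedekindDomain WithZero IntermediateField
open scoped IntermediateField.algebraAdjoinAdjoin

variable {K F : Type*} [Field K] [Field F] [Algebra K F]

/-- Valuation rings of places are integrally closed in `F`. -/
theorem mem_of_isIntegral (v : Place K F) {R : Type*} [CommRing R] [Algebra R F]
    (hR : ∀ r : R, algebraMap R F r ∈ v.toValuationSubring) {b : F} (hb : IsIntegral R b) :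
    b ∈ v.toValuationSubring := by
  obtain ⟨p, hpm, hp0⟩ := hb
  let φ : R →+* v.toValuationSubring :=
    (algebraMap R F).codRestrict v.toValuationSubring.toSubring hR
  have hint' : IsIntegral v.toValuationSubring b := by
    refine ⟨p.map φ, hpm.map φ, ?_⟩
    rw [Polynomial.eval₂_map]
    exact hp0
  obtain ⟨y, hy⟩ := IsIntegrallyClosed.isIntegral_iff.mp hint'
  rw [← hy]
  exact y.2

section General

variable {R : Type*} [CommRing R] [IsDedekindDomain R] [Algebra R F] [IsFractionRing R F]
  [Algebra K R] [IsScalarTower K R F]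

/-- The order function of the place attached to a height-one prime is given by the adic
valuation of that prime. -/
theorem ord_ofHeightOneSpectrum (w : HeightOneSpectrum R) {f : F} (hf : f ≠ 0) :
    (Place.ofHeightOneSpectrum (K := K) (F := F) w).ord f = -log (w.valuation F f) := by
  set v := Place.ofHeightOneSpectrum (K := K) (F := F) w with hv
  have hmem : ∀ g : F, g ∈ v.toValuationSubring ↔ w.valuation F g ≤ 1 := fun g => Iff.rfl
  -- units of `O_v` have valuation one
  have hunit : ∀ u : v.toValuationSubringˣ, w.valuation F ((u : v.toValuationSubring) : F) = 1 := by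
    intro u
    have h1 : w.valuation F ((u : v.toValuationSubring) : F) ≤ 1 :=
      (hmem _).mp (u : v.toValuationSubring).2
    have h2 : w.valuation F (((u⁻¹ : v.toValuationSubringˣ) : v.toValuationSubring) : F) ≤ 1 :=
      (hmem _).mp ((u⁻¹ : v.toValuationSubringˣ) : v.toValuationSubring).2
    have h3 : ((u : v.toValuationSubring) : F) *
        (((u⁻¹ : v.toValuationSubringˣ) : v.toValuationSubring) : F) = 1 :=
      Subtype.ext_iff.mp u.mul_inv
    have h4 := congrArg (w.valuation F) h3
    rw [map_mul, map_one] at h4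
    refine le_antisymm h1 ?_
    calc (1 : ℤᵐ⁰) = w.valuation F ((u : v.toValuationSubring) : F) *
          w.valuation F (((u⁻¹ : v.toValuationSubringˣ) : v.toValuationSubring) : F) := h4.symm
      _ ≤ w.valuation F ((u : v.toValuationSubring) : F) * 1 := by gcongr
      _ = _ := mul_one _
  obtain ⟨π, hπ⟩ := IsDiscreteValuationRing.exists_irreducible v.toValuationSubring
  have hπ0 : (π : F) ≠ 0 := by
    simpa [ne_eq, ZeroMemClass.coe_eq_zero] using hπ.ne_zero
  have hπval0 : w.valuation F (π : F) ≠ 0 := (Valuation.ne_zero_iff _).mpr hπ0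
  -- the valuation of `π` is `exp (-1)`
  have hπlt : w.valuation F (π : F) < 1 := by
    have h1 : w.valuation F (π : F) ≤ 1 := (hmem _).mp π.2
    refine lt_of_le_of_ne h1 ?_
    intro h
    apply hπ.not_isUnit
    have hinv : (π : F)⁻¹ ∈ v.toValuationSubring := by
      rw [hmem, map_inv₀, h, inv_one]
    refine isUnit_iff_exists_inv.mpr ⟨⟨(π : F)⁻¹, hinv⟩, ?_⟩
    apply Subtype.ext
    simp [hπ0]
  have hl : log (w.valuation F (π : F)) ≤ -1 := by
    have : log (w.valuation F (π : F)) < 0 := by
      rw [← WithZero.log_one, WithZero.log_lt_log hπval0 one_ne_zero]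
      exact hπlt
    omega
  obtain ⟨ϖ, hϖ⟩ := w.valuation_exists_uniformizer F
  have hϖ0 : ϖ ≠ 0 := by
    rintro rfl
    rw [map_zero] at hϖ
    exact WithZero.exp_ne_zero hϖ.symm
  obtain ⟨u, hu⟩ := v.exists_unit_mul_zpow hϖ0 hπ
  have hk : (-1 : ℤ) = v.ord ϖ * log (w.valuation F (π : F)) := by
    have h1 := congrArg (fun z => log (w.valuation F z)) hu
    simp only [map_mul, map_zpow₀, hunit u, one_mul, hϖ, log_exp, WithZero.log_zpow,
      smul_eq_mul] at h1
    exact h1
  have hlog : log (w.valuation F (π : F)) = -1 := by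
    have hk1 : 0 < v.ord ϖ := by
      by_contra hneg
      have : v.ord ϖ * log (w.valuation F (π : F)) ≥ 0 :=
        mul_nonneg_of_nonpos_of_nonpos (by omega) (by omega)
      omega
    nlinarith
  obtain ⟨u', hu'⟩ := v.exists_unit_mul_zpow hf hπ
  have h1 := congrArg (fun z => log (w.valuation F z)) hu'
  simp only [map_mul, map_zpow₀, hunit u', one_mul, WithZero.log_zpow, smul_eq_mul, hlog] at h1
  rw [h1]
  ring

theorem adicValuation_ofHeightOneSpectrum (w : HeightOneSpectrum R) (f : F) :
    (Place.ofHeightOneSpectrum (K := K) (F := F) w).adicValuation f = w.valuation F f := by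
  rcases eq_or_ne f 0 with rfl | hf
  · simp
  have h := ord_ofHeightOneSpectrum (K := K) w hf
  unfold Place.ord at h
  have h1 : log ((Place.ofHeightOneSpectrum (K := K) (F := F) w).adicValuation f) = log (w.valuation F f) := by
    omega
  have h2 := (Place.ofHeightOneSpectrum (K := K) (F := F) w).adicValuation_ne_zero hf
  have h3 : w.valuation F f ≠ 0 := (Valuation.ne_zero_iff _).mpr hf
  rw [← WithZero.exp_log h2, ← WithZero.exp_log h3, h1]

theorem mem_asIdeal_iff_ord_pos (w : HeightOneSpectrum R) {r : R} (hr : r ≠ 0) :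
    r ∈ w.asIdeal ↔
      0 < (Place.ofHeightOneSpectrum (K := K) (F := F) w).ord (algebraMap R F r) := by
  have hr' : algebraMap R F r ≠ 0 := by
    simpa using (IsFractionRing.injective R F).ne hr
  rw [ord_pos_iff_adicValuation_lt_one _ hr', adicValuation_ofHeightOneSpectrum,
    HeightOneSpectrum.valuation_lt_one_iff_mem]

theorem ofHeightOneSpectrum_injective :
    Function.Injective (fun w : HeightOneSpectrum R =>
      Place.ofHeightOneSpectrum (K := K) (F := F) w) := by
  intro w w' h
  simp only at h
  apply HeightOneSpectrum.ext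
  ext r
  rcases eq_or_ne r 0 with rfl | hr
  · simp
  rw [mem_asIdeal_iff_ord_pos (K := K) (F := F) w hr,
    mem_asIdeal_iff_ord_pos (K := K) (F := F) w' hr, h]

/-- Every place whose valuation ring contains `R` comes from a height-one prime of `R`. -/
theorem exists_ofHeightOneSpectrum_eq (v : Place K F)
    (hv : ∀ r : R, algebraMap R F r ∈ v.toValuationSubring) :
    ∃ w : HeightOneSpectrum R, Place.ofHeightOneSpectrum (K := K) (F := F) w = v := by
  let φ : R →+* v.toValuationSubring :=
    (algebraMap R F).codRestrict v.toValuationSubring.toSubring hv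
  have hφ : ∀ r : R, ((φ r : v.toValuationSubring) : F) = algebraMap R F r := fun r => rfl
  let q : Ideal R := (IsLocalRing.maximalIdeal v.toValuationSubring).comap φ
  have hqprime : q.IsPrime := Ideal.comap_isPrime φ _
  have hqmem : ∀ r : R, r ∉ q → (algebraMap R F r)⁻¹ ∈ v.toValuationSubring := by
    intro r hr
    have hunit : IsUnit (φ r) := by
      by_contra hnu
      exact hr ((IsLocalRing.mem_maximalIdeal _).mpr hnu)
    obtain ⟨b, hb⟩ := isUnit_iff_exists_inv.mp hunit
    have h1 : algebraMap R F r * (b : F) = 1 := by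
      have := Subtype.ext_iff.mp hb
      exact this
    have h2 : (algebraMap R F r)⁻¹ = (b : F) := by
      have hne : algebraMap R F r ≠ 0 := by
        intro h0
        rw [h0, zero_mul] at h1
        exact zero_ne_one h1
      exact inv_eq_of_mul_eq_one_right h1
    rw [h2]
    exact b.2
  have hqbot : q ≠ ⊥ := by
    intro hbot
    apply v.ne_top'
    rw [eq_top_iff]
    intro f _
    obtain ⟨a, b, hb, rfl⟩ := IsFractionRing.div_surjective (A := R) f
    have hb0 : b ≠ 0 := nonZeroDivisors.ne_zero hb
    have hbq : b ∉ q := by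
      rw [hbot]
      simpa using hb0
    rw [div_eq_mul_inv]
    exact mul_mem (hv a) (hqmem b hbq)
  let w : HeightOneSpectrum R := ⟨q, hqprime, hqbot⟩
  refine ⟨w, ?_⟩
  apply Place.ext
  have hle : (Place.ofHeightOneSpectrum (K := K) (F := F) w).toValuationSubring ≤
      v.toValuationSubring := by
    intro g hg
    have hg' : w.valuation F g ≤ 1 := hg
    obtain ⟨n, d, hnd⟩ := w.exists_primeCompl_mul_eq_of_integer g hg'
    have hd : (d : R) ∉ q := d.2
    have hd0 : algebraMap R F (d : R) ≠ 0 := by
      intro h0
      have : (d : R) = 0 := (IsFractionRing.injective R F) (by rw [h0, map_zero])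
      exact hd (this ▸ q.zero_mem)
    have hg2 : g = algebraMap R F n * (algebraMap R F (d : R))⁻¹ := by
      rw [← hnd]
      field_simp
    rw [hg2]
    exact mul_mem (hv n) (hqmem d hd)
  exact ValuationSubring.eq_of_le_of_ne_top _ hle v.ne_top'

end General

section Fiber

variable (K) (x : F)

theorem polyRing_isPrincipalIdealRing (hx : Transcendental K x) :
    IsPrincipalIdealRing (Algebra.adjoin K {x}) :=
  IsPrincipalIdealRing.of_surjective (Polynomial.algEquivOfTranscendental K x hx).toRingEquiv
    (Polynomial.algEquivOfTranscendental K x hx).surjective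

/-- `K[x]` is a PID when `x` is transcendental. -/
local instance instPID [hx : Fact (Transcendental K x)] :
    IsPrincipalIdealRing (Algebra.adjoin K {x}) :=
  polyRing_isPrincipalIdealRing K x hx.out

local instance instDedekindClosure [CharZero K] [Fact (Transcendental K x)]
    [Module.Finite K⟮x⟯ F] : IsDedekindDomain (integralClosure (Algebra.adjoin K {x}) F) :=
  integralClosure.isDedekindDomain (Algebra.adjoin K {x}) K⟮x⟯ F

local instance instFracClosure [Module.Finite K⟮x⟯ F] :
    IsFractionRing (integralClosure (Algebra.adjoin K {x}) F) F :=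
  integralClosure.isFractionRing_of_finite_extension K⟮x⟯ F

local instance instFiniteClosure [CharZero K] [Fact (Transcendental K x)]
    [Module.Finite K⟮x⟯ F] :
    Module.Finite (Algebra.adjoin K {x}) (integralClosure (Algebra.adjoin K {x}) F) :=
  IsIntegralClosure.finite (Algebra.adjoin K {x}) K⟮x⟯ F _

local instance instTowerClosure :
    IsScalarTower K (integralClosure (Algebra.adjoin K {x}) F) F :=
  IsScalarTower.of_algebraMap_eq (fun c => by simp [Algebra.algebraMap_eq_smul_one])

theorem finrank_closure [CharZero K] [Fact (Transcendental K x)] [Module.Finite K⟮x⟯ F] :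
    Module.finrank (Algebra.adjoin K {x}) (integralClosure (Algebra.adjoin K {x}) F) =
      Module.finrank K⟮x⟯ F :=
  (IsFractionRing.finrank_eq _ _ _ _).symm

/-- The element `x - a` of `K[x]`. -/
def linGen (a : K) : Algebra.adjoin K {x} :=
  ⟨x - algebraMap K F a, sub_mem (Algebra.self_mem_adjoin_singleton K x) (Subalgebra.algebraMap_mem _ a)⟩

theorem linGen_eq (hx : Transcendental K x) (a : K) :
    linGen K x a = Polynomial.algEquivOfTranscendental K x hx (Polynomial.X - Polynomial.C a) := by
  apply Subtype.ext
  simp [linGen, Polynomial.algEquivOfTranscendental_apply]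

theorem linGen_prime (hx : Transcendental K x) (a : K) : Prime (linGen K x a) := by
  rw [linGen_eq K x hx a]
  exact (MulEquiv.prime_iff (Polynomial.algEquivOfTranscendental K x hx).toMulEquiv).mpr
    (Polynomial.prime_X_sub_C a)

/-- The height-one prime `(x - a)` of `K[x]`. -/
def fiberPrime [hx : Fact (Transcendental K x)] (a : K) :
    HeightOneSpectrum (Algebra.adjoin K {x}) where
  asIdeal := Ideal.span {linGen K x a}
  isPrime := (Ideal.span_singleton_prime (linGen_prime K x hx.out a).ne_zero).mpr
    (linGen_prime K x hx.out a)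
  ne_bot := by
    rw [Ne, Ideal.span_singleton_eq_bot]
    exact (linGen_prime K x hx.out a).ne_zero

variable [CharZero K] [hx : Fact (Transcendental K x)] [Module.Finite K⟮x⟯ F]

theorem liesOver_of_mem (q : HeightOneSpectrum (integralClosure (Algebra.adjoin K {x}) F)) (a : K)
    (h : algebraMap (Algebra.adjoin K {x}) (integralClosure (Algebra.adjoin K {x}) F)
      (linGen K x a) ∈ q.asIdeal) :
    q.asIdeal.LiesOver (fiberPrime K x a).asIdeal := by
  constructor
  have hmax : (fiberPrime K x a).asIdeal.IsMaximal := (fiberPrime K x a).isMaximal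
  have hle : (fiberPrime K x a).asIdeal ≤ q.asIdeal.under (Algebra.adjoin K {x}) := by
    show Ideal.span {linGen K x a} ≤ _
    rw [Ideal.span_singleton_le_iff_mem]
    exact h
  have hne : q.asIdeal.under (Algebra.adjoin K {x}) ≠ ⊤ :=
    (Ideal.IsPrime.under (Algebra.adjoin K {x}) q.asIdeal).ne_top
  exact hmax.eq_of_le hne hle

theorem mem_of_liesOver (q : HeightOneSpectrum (integralClosure (Algebra.adjoin K {x}) F)) (a : K)
    [h : q.asIdeal.LiesOver (fiberPrime K x a).asIdeal] :
    algebraMap (Algebra.adjoin K {x}) (integralClosure (Algebra.adjoin K {x}) F)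
      (linGen K x a) ∈ q.asIdeal := by
  have h1 : linGen K x a ∈ (fiberPrime K x a).asIdeal := Ideal.mem_span_singleton_self _
  rw [h.over] at h1
  exact h1

theorem ord_linGen (q : HeightOneSpectrum (integralClosure (Algebra.adjoin K {x}) F)) (a : K)
    [h : q.asIdeal.LiesOver (fiberPrime K x a).asIdeal] :
    (Place.ofHeightOneSpectrum (K := K) (F := F) q).ord (x - algebraMap K F a) =
      (q.asIdeal.ramificationIdx (Algebra.adjoin K {x}) : ℤ) := by
  have hne : x - algebraMap K F a ≠ 0 := by
    intro h0
    have := (linGen_prime K x hx.out a).ne_zero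
    exact this (Subtype.ext h0)
  rw [ord_ofHeightOneSpectrum (K := K) q hne]
  have hval := HeightOneSpectrum.valuation_liesOver (K := K⟮x⟯) F (fiberPrime K x a) q
    (algebraMap (Algebra.adjoin K {x}) K⟮x⟯ (linGen K x a))
  have h1 : (algebraMap K⟮x⟯ F) (algebraMap (Algebra.adjoin K {x}) K⟮x⟯ (linGen K x a)) =
      x - algebraMap K F a := rfl
  rw [h1, HeightOneSpectrum.valuation_of_algebraMap,
    HeightOneSpectrum.intValuation_singleton _ (linGen_prime K x hx.out a).ne_zero rfl] at hval
  rw [← hval, WithZero.log_pow, log_exp,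
    Ideal.ramificationIdx'_eq_ramificationIdx _ _ (fiberPrime K x a).ne_bot]
  simp

theorem inertiaDeg_eq_one [IsAlgClosed K] (htr : Algebra.trdeg K F = 1)
    (q : HeightOneSpectrum (integralClosure (Algebra.adjoin K {x}) F)) (a : K)
    [h : q.asIdeal.LiesOver (fiberPrime K x a).asIdeal] :
    q.asIdeal.inertiaDeg (Algebra.adjoin K {x}) = 1 := by
  have hpmax : (fiberPrime K x a).asIdeal.IsMaximal := (fiberPrime K x a).isMaximal
  have hqmax : q.asIdeal.IsMaximal := q.isMaximal
  rw [Ideal.inertiaDeg_eq_of_isMaximal (fiberPrime K x a).asIdeal q.asIdeal]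
  let : Field (Algebra.adjoin K {x} ⧸ (fiberPrime K x a).asIdeal) := Ideal.Quotient.field _
  rw [finrank_eq_one_iff_of_nonzero'
    (1 : integralClosure (Algebra.adjoin K {x}) F ⧸ q.asIdeal) one_ne_zero]
  intro w
  obtain ⟨b, rfl⟩ := Ideal.Quotient.mk_surjective w
  have hbmem : (b : F) ∈ (Place.ofHeightOneSpectrum (K := K) (F := F) q).toValuationSubring :=
    q.valuation_le_one b
  obtain ⟨c, hc⟩ := exists_residue htr (Place.ofHeightOneSpectrum (K := K) (F := F) q) hbmem
  refine ⟨Ideal.Quotient.mk _ (algebraMap K (Algebra.adjoin K {x}) c), ?_⟩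
  rw [Algebra.smul_def, mul_one, Ideal.Quotient.algebraMap_mk_of_liesOver, Ideal.Quotient.eq]
  set r : integralClosure (Algebra.adjoin K {x}) F :=
    algebraMap (Algebra.adjoin K {x}) (integralClosure (Algebra.adjoin K {x}) F)
      (algebraMap K (Algebra.adjoin K {x}) c) - b with hr
  have hrF : (r : F) = algebraMap K F c - (b : F) := rfl
  rcases hc with hc | hc
  · have : r = 0 := by
      apply Subtype.ext
      rw [hrF, hc, sub_self]
      rfl
    rw [this]
    exact zero_mem _
  · have hr0 : r ≠ 0 := by
      intro h0
      have h1 : (b : F) - algebraMap K F c = 0 := by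
        have := congrArg Subtype.val h0
        rw [hrF] at this
        have h2 : (b : F) - algebraMap K F c = -(algebraMap K F c - (b : F)) := by ring
        rw [h2, this]
        simp
      rw [h1] at hc
      simp at hc
    rw [mem_asIdeal_iff_ord_pos (K := K) (F := F) q hr0]
    have h2 : algebraMap (integralClosure (Algebra.adjoin K {x}) F) F r =
        -((b : F) - algebraMap K F c) := by
      show (r : F) = _
      rw [hrF]; ring
    rw [h2, ord_neg]
    exact hc

/-- The place attached to a prime of the integral closure lying over `(x - a)`. -/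
noncomputable def fiberPlace (a : K)
    (q : (fiberPrime K x a).asIdeal.primesOver (integralClosure (Algebra.adjoin K {x}) F)) :
    Place K F :=
  Place.ofHeightOneSpectrum (K := K) (F := F)
    (⟨q.1, q.2.1, Ideal.ne_bot_of_mem_primesOver (fiberPrime K x a).ne_bot q.2⟩ :
      HeightOneSpectrum (integralClosure (Algebra.adjoin K {x}) F))

theorem fiberPlace_injective (a : K) : Function.Injective (fiberPlace K x a) := by
  intro q q' h
  have := ofHeightOneSpectrum_injective (K := K) (F := F) h
  apply Subtype.ext
  exact congrArg HeightOneSpectrum.asIdeal this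

theorem ord_fiberPlace (a : K)
    (q : (fiberPrime K x a).asIdeal.primesOver (integralClosure (Algebra.adjoin K {x}) F)) :
    (fiberPlace K x a q).ord (x - algebraMap K F a) =
      (q.1.ramificationIdx (Algebra.adjoin K {x}) : ℤ) := by
  have : q.1.LiesOver (fiberPrime K x a).asIdeal := q.2.2
  exact ord_linGen K x
    (⟨q.1, q.2.1, Ideal.ne_bot_of_mem_primesOver (fiberPrime K x a).ne_bot q.2⟩ :
      HeightOneSpectrum (integralClosure (Algebra.adjoin K {x}) F)) a

theorem range_fiberPlace (a : K) :
    Set.range (fiberPlace K x a) = {v : Place K F | 0 < v.ord (x - algebraMap K F a)} := by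
  ext v
  constructor
  · rintro ⟨q, rfl⟩
    show 0 < (fiberPlace K x a q).ord (x - algebraMap K F a)
    rw [ord_fiberPlace]
    have : q.1.IsPrime := q.2.1
    exact_mod_cast Ideal.ramificationIdx_pos (R := Algebra.adjoin K {x}) q.1
  · intro hv
    have hv' : 0 < v.ord (x - algebraMap K F a) := hv
    have hxa : x - algebraMap K F a ∈ v.toValuationSubring := mem_of_ord_pos v hv'
    have hx' : x ∈ v.toValuationSubring := by
      have := add_mem hxa (v.algebraMap_mem' a)
      simpa using this
    -- `K[x] ⊆ O_v`
    let Osub : Subalgebra K F :=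
      { v.toValuationSubring.toSubring with algebraMap_mem' := v.algebraMap_mem' }
    have hA : ∀ r : Algebra.adjoin K {x}, algebraMap (Algebra.adjoin K {x}) F r ∈
        v.toValuationSubring := by
      intro r
      have hle : Algebra.adjoin K {x} ≤ Osub := Algebra.adjoin_le (by
        intro y hy
        rw [Set.mem_singleton_iff] at hy
        rw [hy]
        exact hx')
      exact hle r.2
    have hB : ∀ b : integralClosure (Algebra.adjoin K {x}) F,
        algebraMap (integralClosure (Algebra.adjoin K {x}) F) F b ∈ v.toValuationSubring := by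
      intro b
      exact mem_of_isIntegral v hA b.2
    obtain ⟨w, hw⟩ := exists_ofHeightOneSpectrum_eq (K := K) (F := F) v hB
    have hmem : algebraMap (Algebra.adjoin K {x}) (integralClosure (Algebra.adjoin K {x}) F)
        (linGen K x a) ∈ w.asIdeal := by
      have hne : algebraMap (Algebra.adjoin K {x}) (integralClosure (Algebra.adjoin K {x}) F)
          (linGen K x a) ≠ 0 := by
        intro h0
        have h1 : x - algebraMap K F a = 0 := congrArg Subtype.val h0
        rw [h1] at hv'
        simp at hv'
      rw [mem_asIdeal_iff_ord_pos (K := K) (F := F) w hne, hw]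
      exact hv'
    have hlies := liesOver_of_mem K x w a hmem
    refine ⟨⟨w.asIdeal, w.isPrime, hlies⟩, ?_⟩
    exact hw

/-- The fibre of `x` over `a` is finite. -/
theorem fiber_finite (a : K) :
    {v : Place K F | 0 < v.ord (x - algebraMap K F a)}.Finite := by
  rw [← range_fiberPlace K x a]
  exact Set.finite_range _

/-- **Fundamental identity**: the ramification indices in the fibre of `x` over `a` add up to
`[F : K(x)]`. -/
theorem sum_ord_fiber [IsAlgClosed K] (htr : Algebra.trdeg K F = 1) (a : K) :
    ∑ᶠ v ∈ {v : Place K F | 0 < v.ord (x - algebraMap K F a)}, v.ord (x - algebraMap K F a) =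
      (Module.finrank K⟮x⟯ F : ℤ) := by
  rw [← range_fiberPlace K x a, finsum_mem_range (fiberPlace_injective K x a),
    finsum_eq_sum_of_fintype, ← finrank_closure K x,
    ← Ideal.sum_ramification_inertia_eq_finrank (fiberPrime K x a).asIdeal
      (integralClosure (Algebra.adjoin K {x}) F)]
  push_cast
  apply Finset.sum_congr rfl
  intro q _
  have : q.1.LiesOver (fiberPrime K x a).asIdeal := q.2.2
  rw [ord_fiberPlace, inertiaDeg_eq_one K x htr
    (⟨q.1, q.2.1, Ideal.ne_bot_of_mem_primesOver (fiberPrime K x a).ne_bot q.2⟩ :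
      HeightOneSpectrum (integralClosure (Algebra.adjoin K {x}) F)) a]
  simp

end Fiber

section Public

variable [IsAlgClosed K] [CharZero K] [Algebra.EssFiniteType K F]

/-- The set of zeros of `x - a` is finite. -/
theorem zeros_finite (htr : Algebra.trdeg K F = 1) {x : F} (hx : Transcendental K x) (a : K) :
    {v : Place K F | 0 < v.ord (x - algebraMap K F a)}.Finite := by
  have : Fact (Transcendental K x) := ⟨hx⟩
  have : Module.Finite K⟮x⟯ F := finite_adjoin_simple htr hx
  exact fiber_finite K x a

/-- `∑_{v | a} e_v = [F : K(x)]`. -/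
theorem sum_ord_zeros (htr : Algebra.trdeg K F = 1) {x : F} (hx : Transcendental K x) (a : K) :
    ∑ᶠ v ∈ {v : Place K F | 0 < v.ord (x - algebraMap K F a)}, v.ord (x - algebraMap K F a) =
      (Module.finrank K⟮x⟯ F : ℤ) := by
  have : Fact (Transcendental K x) := ⟨hx⟩
  have : Module.Finite K⟮x⟯ F := finite_adjoin_simple htr hx
  exact sum_ord_fiber K x htr a

private theorem transcendental_inv_dk {x : F} (hx : Transcendental K x) :
    Transcendental K x⁻¹ := by
  intro h
  exact hx (by simpa using h.inv)

theorem adjoin_simple_inv (x : F) : K⟮x⁻¹⟯ = K⟮x⟯ := by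
  apply le_antisymm
  · rw [adjoin_simple_le_iff]
    exact inv_mem (mem_adjoin_simple_self K x)
  · rw [adjoin_simple_le_iff]
    have := inv_mem (mem_adjoin_simple_self K x⁻¹)
    rwa [inv_inv] at this

theorem poles_eq (x : F) :
    {v : Place K F | v.ord x < 0} =
      {v : Place K F | 0 < v.ord (x⁻¹ - algebraMap K F 0)} := by
  ext v
  simp only [Set.mem_ofPred_eq, map_zero, sub_zero, v.ord_inv]
  omega

/-- The set of poles of `x` is finite. -/
theorem poles_finite (htr : Algebra.trdeg K F = 1) {x : F} (hx : Transcendental K x) :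
    {v : Place K F | v.ord x < 0}.Finite := by
  rw [poles_eq]
  exact zeros_finite htr (transcendental_inv_dk hx) 0

/-- `∑_{v | ∞} e_v = [F : K(x)]`. -/
theorem sum_ord_poles (htr : Algebra.trdeg K F = 1) {x : F} (hx : Transcendental K x) :
    ∑ᶠ v ∈ {v : Place K F | v.ord x < 0}, -v.ord x = (Module.finrank K⟮x⟯ F : ℤ) := by
  have h := sum_ord_zeros htr (transcendental_inv_dk hx) 0
  rw [← poles_eq] at h
  have h2 : Module.finrank K⟮x⁻¹⟯ F = Module.finrank K⟮x⟯ F := by
    rw [adjoin_simple_inv]
  rw [← h2, ← h]
  apply finsum_mem_congr rfl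
  intro v _
  simp [v.ord_inv]

end Public

end Fermat.Agent.S24.FF
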