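import Mathlib
import Fermat.Agent.S24.FF.Dedekind

set_option autoImplicit false
set_option linter.unusedSectionVars false

namespace Fermat.Agent.S24.FF

open AlgebraicCurve IsDedekindDomain WithZero IntermediateField

variable {K F : Type*} [Field K] [Field F] [Algebra K F]
variable [IsAlgClosed K] [CharZero K] [Algebra.EssFiniteType K F]

/-- A nonzero function has finitely many zeros and poles. -/
theorem support_ord_finite (htr : Algebra.trdeg K F = 1) {f : F} (hf : f ≠ 0) :
    {v : Place K F | v.ord f ≠ 0}.Finite := by
  by_cases hK : f ∈ Set.range (algebraMap K F)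
  · obtain ⟨c, rfl⟩ := hK
    have : {v : Place K F | v.ord (algebraMap K F c) ≠ 0} = ∅ := by
      ext v
      simp [ord_algebraMap v c]
    rw [this]
    exact Set.finite_empty
  · have hx := transcendental_of_not_mem_range hK
    have h1 := zeros_finite htr hx 0
    have h2 := poles_finite htr hx
    refine (h1.union h2).subset ?_
    intro v hv
    simp only [Set.mem_ofPred_eq, Set.mem_union, map_zero, sub_zero] at hv ⊢
    omega

/-- The principal divisor of a nonzero function exists. -/
theorem exists_divisor_ord (htr : Algebra.trdeg K F = 1) {f : F} (hf : f ≠ 0) :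
    ∃ D : Divisor K F, ∀ v : Place K F, D v = v.ord f := by
  classical
  refine ⟨Finsupp.ofSupportFinite (fun v => v.ord f) ?_, fun v => rfl⟩
  exact support_ord_finite htr hf

theorem degree_eq_finsum (htr : Algebra.trdeg K F = 1) (D : Divisor K F) :
    Divisor.degree D = ∑ᶠ v : Place K F, D v := by
  have h1 : Divisor.degree D = D.sum (fun v n => n * (v.deg : ℤ)) := by
    simp [Divisor.degree, Finsupp.liftAddHom_apply]
  rw [h1, Finsupp.sum, finsum_eq_sum_of_support_subset (s := D.support)]
  · apply Finset.sum_congr rfl
    intro v _
    rw [deg_eq_one htr v]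
    simp
  · intro v hv
    simpa using hv

/-- **Principal divisors have degree zero.** -/
theorem degree_eq_zero_of_ord (htr : Algebra.trdeg K F = 1) {f : F} (hf : f ≠ 0)
    (D : Divisor K F) (hD : ∀ v : Place K F, D v = v.ord f) : Divisor.degree D = 0 := by
  rw [degree_eq_finsum htr D]
  have hfun : (fun v : Place K F => D v) = fun v => v.ord f := funext hD
  rw [hfun]
  by_cases hK : f ∈ Set.range (algebraMap K F)
  · obtain ⟨c, rfl⟩ := hK
    simp [ord_algebraMap]
  · have hx := transcendental_of_not_mem_range hK
    have hZ := zeros_finite htr hx 0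
    have hP := poles_finite htr hx
    have hsZ := sum_ord_zeros htr hx 0
    have hsP := sum_ord_poles htr hx
    simp only [map_zero, sub_zero] at hZ hsZ
    have hdisj : Disjoint {v : Place K F | 0 < v.ord f} {v : Place K F | v.ord f < 0} := by
      rw [Set.disjoint_left]
      intro v h1 h2
      simp only [Set.mem_ofPred_eq] at h1 h2
      omega
    have hsupp : Function.support (fun v : Place K F => v.ord f) ⊆
        {v : Place K F | 0 < v.ord f} ∪ {v : Place K F | v.ord f < 0} := by
      intro v hv
      simp only [Function.mem_support, Set.mem_union, Set.mem_ofPred_eq] at hv ⊢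
      omega
    have hsum : ∑ᶠ v : Place K F, v.ord f =
        ∑ᶠ v ∈ {v : Place K F | 0 < v.ord f} ∪ {v : Place K F | v.ord f < 0}, v.ord f := by
      rw [← finsum_mem_univ]
      apply finsum_mem_inter_support_eq
      rw [Set.univ_inter]
      exact (Set.inter_eq_right.mpr hsupp).symm
    rw [hsum, finsum_mem_union hdisj hZ hP, hsZ]
    have : ∑ᶠ v ∈ {v : Place K F | v.ord f < 0}, v.ord f =
        -∑ᶠ v ∈ {v : Place K F | v.ord f < 0}, -v.ord f := by
      rw [finsum_mem_neg_distrib _ hP, neg_neg]
    rw [this, hsP]
    ring

end Fermat.Agent.S24.FF
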