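import Mathlib
import Fermat.Agent.S24.FF.Dedekind

set_option autoImplicit false
set_option linter.unusedSectionVars false

namespace Fermat.Agent.S24.FF

open AlgebraicCurve IsDedekindDomain WithZero IntermediateField
open scoped IntermediateField.algebraAdjoinAdjoin

variable {K F : Type*} [Field K] [Field F] [Algebra K F]

attribute [local instance] instPID instDedekindClosure instFracClosure instFiniteClosure
  instTowerClosure

section

variable (K) (x : F) [CharZero K] [hx : Fact (Transcendental K x)] [Module.Finite K⟮x⟯ F]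

/-- Prime avoidance in the integral closure of `K[x]`, in terms of places over `x = a`. -/
theorem exists_integral_avoid_aux (a : K) (v : Place K F)
    (hv : 0 < v.ord (x - algebraMap K F a)) (T : Finset (Place K F)) (hvT : v ∉ T)
    (hT : ∀ w ∈ T, 0 < w.ord (x - algebraMap K F a)) :
    ∃ f : F, IsIntegral (Algebra.adjoin K {x}) f ∧ 0 < v.ord f ∧ ∀ w ∈ T, w.ord f = 0 := by
  classical
  have hrange := range_fiberPlace K x a
  obtain ⟨q₀, hq₀⟩ : v ∈ Set.range (fiberPlace K x a) := by rw [hrange]; exact hv
  have hTr : ∀ w ∈ T, ∃ q, fiberPlace K x a q = w := by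
    intro w hw
    have : w ∈ Set.range (fiberPlace K x a) := by rw [hrange]; exact hT w hw
    exact this
  let g : Place K F → Ideal (integralClosure (Algebra.adjoin K {x}) F) := fun w =>
    if h : ∃ q, fiberPlace K x a q = w then h.choose.1 else ⊥
  have hg : ∀ w ∈ T, ∃ q, fiberPlace K x a q = w ∧ g w = q.1 := by
    intro w hw
    refine ⟨(hTr w hw).choose, (hTr w hw).choose_spec, ?_⟩
    simp only [g, dif_pos (hTr w hw)]
  have hnot : ¬ ((q₀.1 : Set (integralClosure (Algebra.adjoin K {x}) F)) ⊆
      ⋃ w ∈ (↑T : Set (Place K F)), (g w : Set (integralClosure (Algebra.adjoin K {x}) F))) := by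
    intro hsub
    rw [Ideal.subset_union_prime (s := T) (f := g) v v] at hsub
    · obtain ⟨w, hw, hle⟩ := hsub
      obtain ⟨q, hqw, hgq⟩ := hg w hw
      rw [hgq] at hle
      have hmax : q₀.1.IsMaximal :=
        Ideal.IsPrime.isMaximal q₀.2.1
          (Ideal.ne_bot_of_mem_primesOver (fiberPrime K x a).ne_bot q₀.2)
      have hqne : q.1 ≠ ⊤ := q.2.1.ne_top
      have heq : q₀.1 = q.1 := hmax.eq_of_le hqne hle
      have : q₀ = q := Subtype.ext heq
      apply hvT
      rw [← hq₀, this, hqw]
      exact hw
    · intro w hw _ _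
      obtain ⟨q, _, hgq⟩ := hg w hw
      rw [hgq]
      exact q.2.1
  rw [Set.not_subset] at hnot
  obtain ⟨f, hfq, hfnot⟩ := hnot
  by_cases hf0 : f = 0
  · -- then `T` is empty
    have hTempty : ∀ w ∈ T, False := by
      intro w hw
      apply hfnot
      rw [hf0]
      simp only [Set.mem_iUnion, SetLike.mem_coe]
      exact ⟨w, hw, zero_mem _⟩
    refine ⟨x - algebraMap K F a, ?_, hv, fun w hw => (hTempty w hw).elim⟩
    have hmem : x - algebraMap K F a ∈ Algebra.adjoin K {x} := (linGen K x a).2
    exact isIntegral_algebraMap (x := (⟨x - algebraMap K F a, hmem⟩ : Algebra.adjoin K {x}))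
  · refine ⟨(f : F), f.2, ?_, ?_⟩
    · rw [← hq₀]
      exact (mem_asIdeal_iff_ord_pos (K := K) (F := F)
        (⟨q₀.1, q₀.2.1, Ideal.ne_bot_of_mem_primesOver (fiberPrime K x a).ne_bot q₀.2⟩ :
          HeightOneSpectrum (integralClosure (Algebra.adjoin K {x}) F)) hf0).mp hfq
    · intro w hw
      obtain ⟨q, hqw, hgq⟩ := hg w hw
      have hfq' : f ∉ q.1 := by
        intro hmem
        apply hfnot
        simp only [Set.mem_iUnion, SetLike.mem_coe]
        exact ⟨w, hw, by rw [hgq]; exact hmem⟩
      have hnpos : ¬ 0 < w.ord (f : F) := by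
        rw [← hqw]
        intro hpos
        exact hfq' ((mem_asIdeal_iff_ord_pos (K := K) (F := F)
          (⟨q.1, q.2.1, Ideal.ne_bot_of_mem_primesOver (fiberPrime K x a).ne_bot q.2⟩ :
            HeightOneSpectrum (integralClosure (Algebra.adjoin K {x}) F)) hf0).mpr hpos)
      have hnonneg : 0 ≤ w.ord (f : F) := by
        rw [← hqw]
        apply ord_nonneg_of_mem
        exact HeightOneSpectrum.valuation_le_one
          (⟨q.1, q.2.1, Ideal.ne_bot_of_mem_primesOver (fiberPrime K x a).ne_bot q.2⟩ :
            HeightOneSpectrum (integralClosure (Algebra.adjoin K {x}) F)) f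
      omega

end

/-- `K[x] ⊆ O_v` as soon as `x ∈ O_v`. -/
theorem adjoin_le_valuationSubring (v : Place K F) {x : F} (hx : x ∈ v.toValuationSubring)
    (r : Algebra.adjoin K {x}) : algebraMap (Algebra.adjoin K {x}) F r ∈ v.toValuationSubring := by
  let Osub : Subalgebra K F :=
    { v.toValuationSubring.toSubring with algebraMap_mem' := v.algebraMap_mem' }
  have hle : Algebra.adjoin K {x} ≤ Osub := Algebra.adjoin_le (by
    intro y hy
    rw [Set.mem_singleton_iff] at hy
    rw [hy]
    exact hx)
  exact hle r.2

/-- A function integral over `K[x]` is regular at every place where `x` is regular. -/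
theorem mem_of_isIntegral_adjoin (v : Place K F) {x : F} (hx : x ∈ v.toValuationSubring)
    {f : F} (hf : IsIntegral (Algebra.adjoin K {x}) f) : f ∈ v.toValuationSubring :=
  mem_of_isIntegral v (adjoin_le_valuationSubring v hx) hf

/-- A function integral over `K[x]` has nonnegative order at every place where `x` is regular. -/
theorem ord_nonneg_of_isIntegral_adjoin (v : Place K F) {x : F} (hx : x ∈ v.toValuationSubring)
    {f : F} (hf : IsIntegral (Algebra.adjoin K {x}) f) : 0 ≤ v.ord f :=
  ord_nonneg_of_mem v (mem_of_isIntegral_adjoin v hx hf)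

section Public

variable [IsAlgClosed K] [CharZero K] [Algebra.EssFiniteType K F]

/-- **Prime avoidance among the places over `x = a`**: there is a function integral over `K[x]`
vanishing at `v` and a unit at every place of `T` (all over `x = a`, different from `v`). -/
theorem exists_integral_avoid_center (htr : Algebra.trdeg K F = 1) {x : F}
    (hx : Transcendental K x) (a : K) (v : Place K F)
    (hv : 0 < v.ord (x - algebraMap K F a)) (T : Finset (Place K F)) (hvT : v ∉ T)
    (hT : ∀ w ∈ T, 0 < w.ord (x - algebraMap K F a)) :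
    ∃ f : F, IsIntegral (Algebra.adjoin K {x}) f ∧ 0 < v.ord f ∧ ∀ w ∈ T, w.ord f = 0 := by
  have : Fact (Transcendental K x) := ⟨hx⟩
  have : Module.Finite K⟮x⟯ F := finite_adjoin_simple htr hx
  exact exists_integral_avoid_aux K x a v hv T hvT hT

/-- The shape requested for the fibre-count block (`a = 0`). -/
theorem exists_integral_avoid (htr : Algebra.trdeg K F = 1) {x : F}
    (hx : Transcendental K x) (v : Place K F) (hv : 0 < v.ord x) (T : Finset (Place K F))
    (hvT : v ∉ T) (hT : ∀ w ∈ T, 0 < w.ord x) :
    ∃ f : F, IsIntegral (Algebra.adjoin K {x}) f ∧ 0 < v.ord f ∧ ∀ w ∈ T, w.ord f = 0 := by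
  have h := exists_integral_avoid_center htr hx 0 v (by simpa using hv) T hvT
    (fun w hw => by simpa using hT w hw)
  exact h

end Public

end Fermat.Agent.S24.FF
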