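import Mathlib
import Fermat.Prelude.Def_AlgebraicCurve_DivisorClassGroup

set_option autoImplicit false

/-!
Adapters: `K(x - a) = K(x)`, `K(x⁻¹) = K(x)`, transfer of `finrank`, finiteness, transcendence,
and poles of `x` = zeros of `x⁻¹`.
-/

namespace Fermat.Agent.S24.FF

open AlgebraicCurve IntermediateField

variable {K F : Type*} [Field K] [Field F] [Algebra K F]

/-- `K(x - a) = K(x)`. -/
theorem adjoin_sub_algebraMap (x : F) (a : K) : K⟮x - algebraMap K F a⟯ = K⟮x⟯ := by
  apply le_antisymm
  · rw [adjoin_simple_le_iff]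
    exact sub_mem (mem_adjoin_simple_self K x) (IntermediateField.algebraMap_mem _ a)
  · rw [adjoin_simple_le_iff]
    have h := add_mem (mem_adjoin_simple_self K (x - algebraMap K F a))
      (IntermediateField.algebraMap_mem K⟮x - algebraMap K F a⟯ a)
    simpa using h

/-- `K(x⁻¹) = K(x)`. -/
theorem adjoin_inv (x : F) : K⟮x⁻¹⟯ = K⟮x⟯ := by
  apply le_antisymm
  · rw [adjoin_simple_le_iff]
    exact inv_mem (mem_adjoin_simple_self K x)
  · rw [adjoin_simple_le_iff]
    have h := inv_mem (mem_adjoin_simple_self K x⁻¹)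
    simpa using h

theorem finrank_adjoin_sub (x : F) (a : K) :
    Module.finrank K⟮x - algebraMap K F a⟯ F = Module.finrank K⟮x⟯ F := by
  rw [adjoin_sub_algebraMap]

theorem finrank_adjoin_inv (x : F) :
    Module.finrank K⟮x⁻¹⟯ F = Module.finrank K⟮x⟯ F := by
  rw [adjoin_inv]

theorem finiteDimensional_adjoin_sub (x : F) (a : K) (hfin : FiniteDimensional K⟮x⟯ F) :
    FiniteDimensional K⟮x - algebraMap K F a⟯ F := by
  rw [adjoin_sub_algebraMap]
  exact hfin

theorem finiteDimensional_adjoin_inv (x : F) (hfin : FiniteDimensional K⟮x⟯ F) :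
    FiniteDimensional K⟮x⁻¹⟯ F := by
  rw [adjoin_inv]
  exact hfin

theorem transcendental_sub_algebraMap {x : F} (hx : Transcendental K x) (a : K) :
    Transcendental K (x - algebraMap K F a) := by
  intro h
  apply hx
  have h2 : IsAlgebraic K ((x - algebraMap K F a) + algebraMap K F a) :=
    h.add (isAlgebraic_algebraMap a)
  simpa using h2

theorem transcendental_inv {x : F} (hx : Transcendental K x) : Transcendental K x⁻¹ := by
  intro h
  apply hx
  have h2 := h.inv
  rwa [inv_inv] at h2

theorem transcendental_sub_algebraMap_iff {x : F} (a : K) :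
    Transcendental K (x - algebraMap K F a) ↔ Transcendental K x := by
  refine ⟨fun h => ?_, fun h => transcendental_sub_algebraMap h a⟩
  have := transcendental_sub_algebraMap h (-a)
  simpa using this

theorem transcendental_inv_iff {x : F} : Transcendental K x⁻¹ ↔ Transcendental K x :=
  ⟨fun h => by simpa using transcendental_inv h, transcendental_inv⟩

/-- The places where `x` has a pole are the places where `x⁻¹` has a zero. -/
theorem ord_neg_iff_ord_inv_pos (v : Place K F) (x : F) : v.ord x < 0 ↔ 0 < v.ord x⁻¹ := by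
  rw [v.ord_inv]
  omega

theorem setOf_ord_neg_eq (x : F) :
    {v : Place K F | v.ord x < 0} = {v : Place K F | 0 < v.ord x⁻¹} := by
  ext v
  exact ord_neg_iff_ord_inv_pos v x

theorem card_poles_eq_card_zeros_inv (x : F) :
    Nat.card {v : Place K F // v.ord x < 0} = Nat.card {v : Place K F // 0 < v.ord x⁻¹} :=
  Nat.card_congr (Equiv.subtypeEquivRight fun v => ord_neg_iff_ord_inv_pos v x)

theorem card_zeros_inv_eq_card_poles (x : F) :
    Nat.card {v : Place K F // 0 < v.ord x⁻¹} = Nat.card {v : Place K F // v.ord x < 0} :=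
  (card_poles_eq_card_zeros_inv x).symm

/-- zeros of `x - a` in terms of a shifted generator `y = x - a` (pure rewriting helper). -/
theorem card_zeros_congr {x y : F} (h : x = y) :
    Nat.card {v : Place K F // 0 < v.ord x} = Nat.card {v : Place K F // 0 < v.ord y} := by
  subst h; rfl

end Fermat.Agent.S24.FF
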